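import Fermat.Prelude.Def_FLTPrelim_ModularRep
import Fermat.Prelude.Def_FreyPackage_IsConductorLevel
import Fermat.Agent.FreyModel.Basic
import Fermat.Prelude.Def_WeierstrassCurve_Mlc1RowStatement

/-!
# The conductor level of the Frey representation

Modularity of the integral Frey model at its exact conductor level gives modularity of the mod `p`
representation at a conductor level of the Frey package.
-/

set_option autoImplicit false

noncomputable section

open WeierstrassCurve

namespace Fermat.Agent.FreyConductor

/-- A model modular of level `N` gives the mod-`p` representation modular of level `N`. -/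
theorem modularRepOfLevel_of_model (P : FreyPackage) {W : WeierstrassCurve ℤ} {N : ℕ}
    (hW : W.IsIntegralModelOf P.freyCurve) (hmod : W.IsModularModelOfLevel N) :
    P.ModularRepOfLevel N := by
  obtain ⟨f, hf, hfa⟩ := hmod
  obtain ⟨𝔪, h𝔪, hp𝔪⟩ := FLTPrelim.exists_maximalIdeal_natCast_prime_mem P.pp
  refine ⟨f, W, 𝔪, hf, hW, h𝔪, hp𝔪, fun ℓ hℓ hgood hℓN _ => ?_⟩
  refine ⟨(W.apOfModel ℓ : integralClosure ℤ ℂ), ?_, ?_⟩
  · rw [hfa ℓ hℓ hgood hℓN]
    simp
  · rw [sub_self]
    exact 𝔪.zero_mem

/-- A squarefree level supported on the bad primes of the Frey model is a conductor level. -/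
theorem isConductorLevel_of_support (P : FreyPackage) {N : ℕ} (hN : 0 < N) (hsq : Squarefree N)
    (hsupp : ∀ q : ℕ, q.Prime → q ∣ N → (q : ℤ) ∣ P.freyCurveInt.Δ) :
    P.IsConductorLevel N :=
  ⟨hN, hsq, fun q hq hqN => FreyModel.dvd_abc_of_dvd_Δ P hq (hsupp q hq hqN)⟩

/-- The Frey representation is modular at a conductor level if the integral Frey model is modular
at its exact conductor level. -/
theorem exists_conductorLevel_of_exact (P : FreyPackage)
    (h : Mlc1IsModularModelOfExactConductorLevel P.freyCurveInt) :
    ∃ N : ℕ, P.IsConductorLevel N ∧ P.ModularRepOfLevel N := by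
  obtain ⟨N, hN, hsq, hiff, hmod⟩ := h
  exact ⟨N, isConductorLevel_of_support P hN hsq fun q hq => (hiff q hq).1,
    modularRepOfLevel_of_model P (FreyModel.freyCurveInt_isIntegralModelOf P) hmod⟩

/-- The Frey representation is modular at a conductor level if every semistable model is modular
at its exact conductor level. -/
theorem exists_conductorLevel_of_semistable
    (h : ∀ W : WeierstrassCurve ℤ, W.Δ ≠ 0 → W.IsSemistableModel →
      Mlc1IsModularModelOfExactConductorLevel W) (P : FreyPackage) :
    ∃ N : ℕ, P.IsConductorLevel N ∧ P.ModularRepOfLevel N :=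
  exists_conductorLevel_of_exact P
    (h _ (FreyModel.freyCurveInt_Δ_ne_zero P) (FreyModel.freyCurveInt_isSemistableModel P))

end Fermat.Agent.FreyConductor

end
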